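import Mathlib
import Fermat.Agent.FF2.Weier.DivDiff

/-!
# (UC4) Abstract universal chord, file 1: the condition matrix

All in COORDINATES.  `ι` indexes a `W`-basis of the lattice (`L_W(m∞)`), and the data are the
Taylor series of the basis elements:

* `τD d i ∈ W⟦t⟧` at the input discs `d : D` carrying a DOUBLE condition
  (`f(x_d) = 0` and `f[x_d, y_d] = 0`, i.e. `(t - x_d)(t - y_d) ∣ T_d f`);
* `τS s i ∈ W⟦t⟧` at the input discs `s : S` carrying a SINGLE condition (`f(z_s) = 0`);
* `ρ0 : Matrix ν ι W` the fixed jets (vanishing on the fixed divisor `R0`);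
* `τO o i ∈ W⟦t⟧` at the output discs `o : O`.

For a `W`-algebra `B`, an ideal `I` with `B` `I`-adically complete and a point
`P = (x, y, z)` with coordinates in `I`, `condMatrix C B I P : Matrix (D ⊕ D ⊕ S ⊕ ν) ι B` is the
matrix of the conditions.  We prove

* `mulVec_condMatrix_*` : its rows compute `evalM`, `dd` of the Taylor series `tay B τ f`;
* `condMatrix_map` : BASE CHANGE, `(condMatrix C A I P).map ρ = condMatrix C B J (P.map ρ)`;
* `condMatrix_sub_cond0_mem` : modulo `I` it is the constant matrix `cond0`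
  (`coeff 0`, `coeff 1`, `coeff 0`, `ρ0`).
-/

set_option autoImplicit false

namespace Fermat.Agent.FF2.Chord

open PowerSeries Fermat.Agent.FF2.Weier

/-- The data of an abstract chord: Taylor series of a basis of the lattice at the input discs
(`τD` double conditions, `τS` single conditions), fixed jets `ρ0`, Taylor series at the output
discs `τO`. -/
structure ChordData (W : Type*) [CommRing W] (ι D S ν O : Type*) where
  τD : D → ι → PowerSeries W
  τS : S → ι → PowerSeries W
  ρ0 : Matrix ν ι W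
  τO : O → ι → PowerSeries W

/-- A point `(x, y, z)` with coordinates in the ideal `I`. -/
structure Pt (B : Type*) [CommRing B] (I : Ideal B) (D S : Type*) where
  x : D → B
  y : D → B
  z : S → B
  hx : ∀ d, x d ∈ I
  hy : ∀ d, y d ∈ I
  hz : ∀ s, z s ∈ I

/-- Image of a point under a ring hom mapping `I` into `J`. -/
def Pt.map {A B : Type*} [CommRing A] [CommRing B] {I : Ideal A} {J : Ideal B} {D S : Type*}
    (P : Pt A I D S) (ρ : A →+* B) (hρ : ∀ a ∈ I, ρ a ∈ J) : Pt B J D S where
  x d := ρ (P.x d)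
  y d := ρ (P.y d)
  z s := ρ (P.z s)
  hx d := hρ _ (P.hx d)
  hy d := hρ _ (P.hy d)
  hz s := hρ _ (P.hz s)

variable {W : Type*} [CommRing W] {ι D S ν O : Type*}

/-- The Taylor series of the section with coordinates `f : ι → B`. -/
noncomputable def tay (B : Type*) [CommRing B] [Algebra W B] [Fintype ι]
    (τ : ι → PowerSeries W) (f : ι → B) : PowerSeries B :=
  ∑ i, PowerSeries.C (f i) * (τ i).map (algebraMap W B)

theorem tay_map {A B : Type*} [CommRing A] [CommRing B] [Algebra W A] [Algebra W B] [Fintype ι]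
    (ρ : A →ₐ[W] B) (τ : ι → PowerSeries W) (f : ι → A) :
    (tay A τ f).map (ρ : A →+* B) = tay B τ (fun i => ρ (f i)) := by
  unfold tay
  rw [map_sum]
  refine Finset.sum_congr rfl fun i _ => ?_
  rw [map_mul, PowerSeries.map_C]
  congr 1
  ext n
  simp [PowerSeries.coeff_map]

/-- The constant condition matrix over `W`: `coeff 0`, `coeff 1` at `D`, `coeff 0` at `S`, `ρ0`. -/
noncomputable def cond0 (C : ChordData W ι D S ν O) : Matrix (D ⊕ D ⊕ S ⊕ ν) ι W :=
  fun c i => Sum.elim (fun d => coeff 0 (C.τD d i))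
    (Sum.elim (fun d => coeff 1 (C.τD d i))
      (Sum.elim (fun s => coeff 0 (C.τS s i)) (fun n => C.ρ0 n i))) c

/-- The condition matrix at the point `P` over `B`. -/
noncomputable def condMatrix (C : ChordData W ι D S ν O) (B : Type*) [CommRing B] [Algebra W B]
    (I : Ideal B) [IsAdicComplete I B] (P : Pt B I D S) : Matrix (D ⊕ D ⊕ S ⊕ ν) ι B :=
  fun c i => Sum.elim (fun d => evalM I (P.x d) (P.hx d) ((C.τD d i).map (algebraMap W B)))
    (Sum.elim (fun d => dd I (P.x d) (P.y d) (P.hx d) (P.hy d)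
        ((C.τD d i).map (algebraMap W B)))
      (Sum.elim (fun s => evalM I (P.z s) (P.hz s) ((C.τS s i).map (algebraMap W B)))
        (fun n => algebraMap W B (C.ρ0 n i)))) c

section Rows

variable (C : ChordData W ι D S ν O) {B : Type*} [CommRing B] [Algebra W B]
  {I : Ideal B} [IsAdicComplete I B] (P : Pt B I D S) [Fintype ι]

theorem evalM_tay {a : B} (ha : a ∈ I) (τ : ι → PowerSeries W) (f : ι → B) :
    evalM I a ha (tay B τ f) = ∑ i, f i * evalM I a ha ((τ i).map (algebraMap W B)) := by
  unfold tay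
  rw [map_sum]
  refine Finset.sum_congr rfl fun i _ => ?_
  rw [map_mul, evalM_C]

theorem dd_tay {a b : B} (ha : a ∈ I) (hb : b ∈ I) (τ : ι → PowerSeries W) (f : ι → B) :
    dd I a b ha hb (tay B τ f) = ∑ i, f i * dd I a b ha hb ((τ i).map (algebraMap W B)) := by
  unfold tay
  rw [← ddₗ_apply, map_sum]
  refine Finset.sum_congr rfl fun i _ => ?_
  rw [← smul_eq_C_mul, map_smul, smul_eq_mul, ddₗ_apply]

theorem mulVec_condMatrix_inl (f : ι → B) (d : D) :
    (condMatrix C B I P).mulVec f (Sum.inl d)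
      = evalM I (P.x d) (P.hx d) (tay B (C.τD d) f) := by
  rw [evalM_tay]
  simp [Matrix.mulVec, dotProduct, condMatrix, mul_comm]

theorem mulVec_condMatrix_inr_inl (f : ι → B) (d : D) :
    (condMatrix C B I P).mulVec f (Sum.inr (Sum.inl d))
      = dd I (P.x d) (P.y d) (P.hx d) (P.hy d) (tay B (C.τD d) f) := by
  rw [dd_tay]
  simp [Matrix.mulVec, dotProduct, condMatrix, mul_comm]

theorem mulVec_condMatrix_inr_inr_inl (f : ι → B) (s : S) :
    (condMatrix C B I P).mulVec f (Sum.inr (Sum.inr (Sum.inl s)))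
      = evalM I (P.z s) (P.hz s) (tay B (C.τS s) f) := by
  rw [evalM_tay]
  simp [Matrix.mulVec, dotProduct, condMatrix, mul_comm]

theorem mulVec_condMatrix_inr_inr_inr (f : ι → B) (n : ν) :
    (condMatrix C B I P).mulVec f (Sum.inr (Sum.inr (Sum.inr n)))
      = ((C.ρ0.map (algebraMap W B)).mulVec f) n := by
  simp [Matrix.mulVec, dotProduct, condMatrix]

/-- **Kernel of the condition matrix = sections satisfying the conditions**:
`(t - x_d)(t - y_d) ∣ T_d f`, `(t - z_s) ∣ T_s f`, `ρ0 f = 0`. -/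
theorem mulVec_condMatrix_eq_zero_iff (f : ι → B) :
    (condMatrix C B I P).mulVec f = 0 ↔
      (∀ d, (PowerSeries.X - PowerSeries.C (P.x d)) * (PowerSeries.X - PowerSeries.C (P.y d))
          ∣ tay B (C.τD d) f) ∧
      (∀ s, (PowerSeries.X - PowerSeries.C (P.z s)) ∣ tay B (C.τS s) f) ∧
      (C.ρ0.map (algebraMap W B)).mulVec f = 0 := by
  constructor
  · intro h
    refine ⟨fun d => ?_, fun s => ?_, ?_⟩
    · rw [← evalM_eq_zero_and_dd_eq_zero_iff (P.hx d) (P.hy d)]
      constructor
      · rw [← mulVec_condMatrix_inl, h]; rfl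
      · rw [← mulVec_condMatrix_inr_inl, h]; rfl
    · rw [← evalM_eq_zero_iff (P.hz s), ← mulVec_condMatrix_inr_inr_inl, h]; rfl
    · funext n
      rw [← mulVec_condMatrix_inr_inr_inr C P, h]; rfl
  · rintro ⟨h1, h2, h3⟩
    funext c
    rcases c with d | d | s | n
    · rw [mulVec_condMatrix_inl]
      exact ((evalM_eq_zero_and_dd_eq_zero_iff (P.hx d) (P.hy d) _).2 (h1 d)).1
    · rw [mulVec_condMatrix_inr_inl]
      exact ((evalM_eq_zero_and_dd_eq_zero_iff (P.hx d) (P.hy d) _).2 (h1 d)).2
    · rw [mulVec_condMatrix_inr_inr_inl]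
      exact (evalM_eq_zero_iff (P.hz s) _).2 (h2 s)
    · rw [mulVec_condMatrix_inr_inr_inr, h3]; rfl

end Rows

section BaseChange

theorem map_map_algebraMap {A B : Type*} [CommRing A] [CommRing B] [Algebra W A] [Algebra W B]
    (ρ : A →ₐ[W] B) (τ : PowerSeries W) :
    (τ.map (algebraMap W A)).map (ρ : A →+* B) = τ.map (algebraMap W B) := by
  ext n
  simp [PowerSeries.coeff_map]

/-- **Base change of the condition matrix**: specialising the point specialises the matrix. -/
theorem condMatrix_map (C : ChordData W ι D S ν O) {A B : Type*} [CommRing A] [CommRing B]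
    [Algebra W A] [Algebra W B] {I : Ideal A} [IsAdicComplete I A] {J : Ideal B}
    [IsAdicComplete J B] (ρ : A →ₐ[W] B) (hρ : ∀ a ∈ I, (ρ : A →+* B) a ∈ J) (P : Pt A I D S) :
    (condMatrix C A I P).map (ρ : A →+* B) = condMatrix C B J (P.map (ρ : A →+* B) hρ) := by
  funext c i
  rcases c with d | d | s | n
  · simp only [Matrix.map_apply, condMatrix, Sum.elim_inl, Pt.map]
    rw [map_evalM (ρ : A →+* B) (P.hx d) (hρ _ (P.hx d)), map_map_algebraMap]
  · simp only [Matrix.map_apply, condMatrix, Sum.elim_inl, Sum.elim_inr, Pt.map]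
    rw [map_dd (ρ : A →+* B) (P.hx d) (P.hy d) (hρ _ (P.hx d)) (hρ _ (P.hy d)),
      map_map_algebraMap]
  · simp only [Matrix.map_apply, condMatrix, Sum.elim_inl, Sum.elim_inr, Pt.map]
    rw [map_evalM (ρ : A →+* B) (P.hz s) (hρ _ (P.hz s)), map_map_algebraMap]
  · simp only [Matrix.map_apply, condMatrix, Sum.elim_inr]
    exact ρ.commutes _

end BaseChange

section Reduction

variable {B : Type*} [CommRing B] {I : Ideal B} [IsAdicComplete I B]

theorem evalM_sub_coeff_zero_mem {a : B} (ha : a ∈ I) (f : PowerSeries B) :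
    evalM I a ha f - coeff 0 f ∈ I := by
  have h := evalM_sub_sum_mem ha f 1
  simpa using h

theorem dd_sub_coeff_one_mem {a b : B} (ha : a ∈ I) (hb : b ∈ I) (f : PowerSeries B) :
    dd I a b ha hb f - coeff 1 f ∈ I := by
  have h1 : evalM I b hb (dq I a ha f) - coeff 0 (dq I a ha f) ∈ I :=
    evalM_sub_coeff_zero_mem hb _
  have h2 : coeff 1 f = coeff 0 (dq I a ha f) - a * coeff 1 (dq I a ha f) := by
    conv_lhs => rw [dq_spec ha f]
    rw [map_add, sub_mul, map_sub, coeff_succ_X_mul, coeff_C_mul, coeff_C]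
    simp
  have h3 : dd I a b ha hb f - coeff 1 f
      = (evalM I b hb (dq I a ha f) - coeff 0 (dq I a ha f)) + a * coeff 1 (dq I a ha f) := by
    rw [h2, dd]; ring
  rw [h3]
  exact I.add_mem h1 (I.mul_mem_right _ ha)

/-- **Reduction of the condition matrix**: modulo `I` it is the constant matrix `cond0`. -/
theorem condMatrix_sub_cond0_mem (C : ChordData W ι D S ν O) [Algebra W B] (P : Pt B I D S)
    (c : D ⊕ D ⊕ S ⊕ ν) (i : ι) :
    condMatrix C B I P c i - algebraMap W B (cond0 C c i) ∈ I := by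
  rcases c with d | d | s | n
  · simp only [condMatrix, cond0, Sum.elim_inl]
    have := evalM_sub_coeff_zero_mem (P.hx d) ((C.τD d i).map (algebraMap W B))
    rwa [PowerSeries.coeff_map] at this
  · simp only [condMatrix, cond0, Sum.elim_inl, Sum.elim_inr]
    have := dd_sub_coeff_one_mem (P.hx d) (P.hy d) ((C.τD d i).map (algebraMap W B))
    rwa [PowerSeries.coeff_map] at this
  · simp only [condMatrix, cond0, Sum.elim_inl, Sum.elim_inr]
    have := evalM_sub_coeff_zero_mem (P.hz s) ((C.τS s i).map (algebraMap W B))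
    rwa [PowerSeries.coeff_map] at this
  · simp only [condMatrix, cond0, Sum.elim_inr, sub_self]
    exact I.zero_mem

end Reduction

end Fermat.Agent.FF2.Chord
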