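import Mathlib
import Fermat.Agent.FF2.LocLA.Cramer

/-!
# (UC4) Abstract universal chord, file 2: the Cramer generator of a corank-one kernel

`Ψ : Matrix κ ι B` with `ι ≃ κ ⊕ Unit` (one more unknown than conditions) and invertible pivot
block `Ψ.submatrix id (e ∘ inl)`.  `kerGen Ψ e : ι → B` is the Cramer generator of the kernel:

* `kerGen_apply_inr` : its `e (inr ())`-coordinate is `1`;
* `mulVec_kerGen` : it lies in the kernel;
* `eq_smul_kerGen` : every kernel vector `f` is `f (e (inr ())) • kerGen Ψ e` (rank one, free);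
* `kerGen_map` : it commutes with EVERY ring hom.
-/

set_option autoImplicit false
set_option linter.unusedSectionVars false

namespace Fermat.Agent.FF2.Chord

open Matrix Fermat.Agent.FF2.LocLA

variable {B : Type*} [CommRing B] {κ ι : Type*} [Fintype κ] [DecidableEq κ] [Fintype ι]

/-- The Cramer generator of the kernel of `Ψ` with respect to the column reindexing `e`. -/
noncomputable def kerGen (Ψ : Matrix κ ι B) (e : κ ⊕ Unit ≃ ι) : ι → B :=
  fun i => cramerKer (Ψ.submatrix id (e ∘ Sum.inl)) (Ψ.submatrix id (e ∘ Sum.inr)) (e.symm i) ()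

theorem submatrix_eq_fromCols (Ψ : Matrix κ ι B) (e : κ ⊕ Unit ≃ ι) :
    Ψ.submatrix id e
      = Matrix.fromCols (Ψ.submatrix id (e ∘ Sum.inl)) (Ψ.submatrix id (e ∘ Sum.inr)) := by
  ext c (c' | u) <;> simp [Matrix.fromCols_apply_inl, Matrix.fromCols_apply_inr]

theorem kerGen_comp (Ψ : Matrix κ ι B) (e : κ ⊕ Unit ≃ ι) :
    kerGen Ψ e ∘ e
      = cramerKer (Ψ.submatrix id (e ∘ Sum.inl)) (Ψ.submatrix id (e ∘ Sum.inr)) *ᵥ
          (fun _ : Unit => (1 : B)) := by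
  funext j
  simp [kerGen, Matrix.mulVec, dotProduct]

theorem kerGen_apply_inr (Ψ : Matrix κ ι B) (e : κ ⊕ Unit ≃ ι) :
    kerGen Ψ e (e (Sum.inr ())) = 1 := by
  have h := congrFun (kerGen_comp Ψ e) (Sum.inr ())
  rw [cramerKer_mulVec] at h
  simpa using h

theorem mulVec_eq_submatrix_mulVec (Ψ : Matrix κ ι B) (e : κ ⊕ Unit ≃ ι) (f : ι → B) :
    Ψ *ᵥ f = (Ψ.submatrix id e) *ᵥ (f ∘ e) := by
  have h := Matrix.submatrix_mulVec_equiv Ψ (f ∘ e) id e
  rw [h]
  funext c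
  simp [Function.comp_def]

theorem mulVec_kerGen (Ψ : Matrix κ ι B) (e : κ ⊕ Unit ≃ ι)
    (hP : IsUnit (Ψ.submatrix id (e ∘ Sum.inl))) : Ψ *ᵥ kerGen Ψ e = 0 := by
  rw [mulVec_eq_submatrix_mulVec Ψ e, kerGen_comp, submatrix_eq_fromCols, Matrix.mulVec_mulVec,
    fromCols_mul_cramerKer _ _ hP, Matrix.zero_mulVec]

theorem eq_smul_kerGen (Ψ : Matrix κ ι B) (e : κ ⊕ Unit ≃ ι)
    (hP : IsUnit (Ψ.submatrix id (e ∘ Sum.inl))) (f : ι → B) (hf : Ψ *ᵥ f = 0) :
    f = f (e (Sum.inr ())) • kerGen Ψ e := by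
  have h1 : (f ∘ e) ∈ LinearMap.ker (Matrix.fromCols (Ψ.submatrix id (e ∘ Sum.inl))
      (Ψ.submatrix id (e ∘ Sum.inr))).mulVecLin := by
    rw [LinearMap.mem_ker, Matrix.mulVecLin_apply, ← submatrix_eq_fromCols,
      ← mulVec_eq_submatrix_mulVec, hf]
  rw [ker_fromCols_eq_range _ _ hP] at h1
  obtain ⟨y, hy⟩ := h1
  rw [Matrix.mulVecLin_apply] at hy
  have hy1 : y = fun _ : Unit => f (e (Sum.inr ())) := by
    have := congrFun hy (Sum.inr ())
    rw [cramerKer_mulVec] at this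
    funext u
    simpa using this
  have h2 : f ∘ e = (f (e (Sum.inr ())) • kerGen Ψ e) ∘ e := by
    rw [← hy, hy1]
    funext j
    have h3 := congrFun (kerGen_comp Ψ e) j
    simp only [Function.comp_apply, Pi.smul_apply, smul_eq_mul] at h3 ⊢
    rw [h3]
    simp [Matrix.mulVec, dotProduct, mul_comm]
  funext i
  have := congrFun h2 (e.symm i)
  simpa using this

theorem kerGen_map {B' : Type*} [CommRing B'] (ρ : B →+* B') (Ψ : Matrix κ ι B)
    (e : κ ⊕ Unit ≃ ι) (hP : IsUnit (Ψ.submatrix id (e ∘ Sum.inl))) :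
    kerGen (Ψ.map ρ) e = fun i => ρ (kerGen Ψ e i) := by
  funext i
  unfold kerGen
  have h1 : (Ψ.map ρ).submatrix id (e ∘ Sum.inl) = (Ψ.submatrix id (e ∘ Sum.inl)).map ρ := by
    ext; rfl
  have h2 : (Ψ.map ρ).submatrix id (e ∘ Sum.inr) = (Ψ.submatrix id (e ∘ Sum.inr)).map ρ := by
    ext; rfl
  rw [h1, h2, ← cramerKer_map ρ _ _ hP]
  rfl

end Fermat.Agent.FF2.Chord
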