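import Mathlib
import Fermat.Agent.FF2.Chord.Cond
import Fermat.Agent.FF2.Chord.Gen

/-!
# (UC4) Abstract universal chord, file 3: chord solutions, base change, uniqueness

`ChordSol C B I P` = a solution of the chord problem at the point `P` over `(B, I)`:
a column reindexing `e : κ ⊕ Unit ≃ ι` with invertible pivot block (so that the kernel of the
condition matrix is FREE OF RANK ONE on the Cramer generator `s.F`), and for each output disc
`o` a root `s.Wser o ∈ I` with `T'_o (s.F) = (X - C (s.Wser o)) * unit`.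

* `ChordSol.map` : solutions specialise along EVERY `W`-algebra hom `ρ : A → B` with `ρ I ⊆ J`
  (`(s.map ρ hρ).F = ρ ∘ s.F`, `(s.map ρ hρ).Wser = ρ ∘ s.Wser`): (G4);
* `ChordSol.tay_eq_of_mulVec_eq_zero` : EVERY kernel vector `f` has
  `T'_o f = C (f i0) * (X - C (Wser o)) * unit`;
* `ChordSol.root_eq` : hence the root in `I` of `T'_o f` is `Wser o` whenever `f i0` is a
  non-zero-divisor (e.g. `B` a domain and `f ≠ 0`);
* `ChordSol.Wser_unique` : two solutions at the same point have the same `Wser`.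
-/

set_option autoImplicit false
set_option linter.unusedSectionVars false

namespace Fermat.Agent.FF2.Chord

open PowerSeries Fermat.Agent.FF2.Weier Fermat.Agent.FF2.LocLA

variable {W : Type*} [CommRing W] {ι D S ν O : Type*} [Fintype ι] [Fintype D] [Fintype S]
  [Fintype ν] [DecidableEq D] [DecidableEq S] [DecidableEq ν]

/-- A solution of the chord problem at `P` over `(B, I)`. -/
structure ChordSol (C : ChordData W ι D S ν O) (B : Type*) [CommRing B] [Algebra W B]
    (I : Ideal B) [IsAdicComplete I B] (P : Pt B I D S) where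
  e : (D ⊕ D ⊕ S ⊕ ν) ⊕ Unit ≃ ι
  isUnit_minor : IsUnit ((condMatrix C B I P).submatrix id (e ∘ Sum.inl))
  Wser : O → B
  Wser_mem : ∀ o, Wser o ∈ I
  u : O → PowerSeries B
  isUnit_u : ∀ o, IsUnit (u o)
  tay_eq : ∀ o, tay B (C.τO o) (kerGen (condMatrix C B I P) e)
    = (PowerSeries.X - PowerSeries.C (Wser o)) * u o

namespace ChordSol

variable {C : ChordData W ι D S ν O} {B : Type*} [CommRing B] [Algebra W B]
  {I : Ideal B} [IsAdicComplete I B] {P : Pt B I D S}

/-- The generator of the kernel of the conditions. -/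
noncomputable def F (s : ChordSol C B I P) : ι → B := kerGen (condMatrix C B I P) s.e

/-- The normalised coordinate. -/
def i0 (s : ChordSol C B I P) : ι := s.e (Sum.inr ())

theorem F_i0 (s : ChordSol C B I P) : s.F s.i0 = 1 := kerGen_apply_inr _ _

theorem mulVec_F (s : ChordSol C B I P) : (condMatrix C B I P).mulVec s.F = 0 :=
  mulVec_kerGen _ _ s.isUnit_minor

/-- The kernel of the conditions is free of rank one on `s.F`. -/
theorem eq_smul_F (s : ChordSol C B I P) (f : ι → B)
    (hf : (condMatrix C B I P).mulVec f = 0) : f = f s.i0 • s.F :=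
  eq_smul_kerGen _ _ s.isUnit_minor f hf

theorem tay_F (s : ChordSol C B I P) (o : O) :
    tay B (C.τO o) s.F = (PowerSeries.X - PowerSeries.C (s.Wser o)) * s.u o := s.tay_eq o

theorem tay_smul (τ : ι → PowerSeries W) (c : B) (f : ι → B) :
    tay B τ (c • f) = PowerSeries.C c * tay B τ f := by
  unfold tay
  rw [Finset.mul_sum]
  refine Finset.sum_congr rfl fun i _ => ?_
  rw [Pi.smul_apply, smul_eq_mul, map_mul, mul_assoc]

/-- EVERY kernel vector has the same output factorisation, up to the constant `f i0`. -/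
theorem tay_eq_of_mulVec_eq_zero (s : ChordSol C B I P) (f : ι → B)
    (hf : (condMatrix C B I P).mulVec f = 0) (o : O) :
    tay B (C.τO o) f
      = PowerSeries.C (f s.i0) * ((PowerSeries.X - PowerSeries.C (s.Wser o)) * s.u o) := by
  conv_lhs => rw [s.eq_smul_F f hf]
  rw [tay_smul, s.tay_F]

/-- The root in `I` of the output Taylor series of a kernel vector is `Wser o`. -/
theorem root_eq (s : ChordSol C B I P) (f : ι → B)
    (hf : (condMatrix C B I P).mulVec f = 0) (hc : ∀ b : B, f s.i0 * b = 0 → b = 0) (o : O)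
    {Z : B} (hZ : Z ∈ I) (hroot : evalM I Z hZ (tay B (C.τO o) f) = 0) : Z = s.Wser o := by
  rw [s.tay_eq_of_mulVec_eq_zero f hf o, map_mul, evalM_C, evalM_X_sub_C_mul] at hroot
  have h1 := hc _ hroot
  have h2 := isUnit_evalM_of_isUnit hZ (s.isUnit_u o)
  exact sub_eq_zero.1 ((h2.mul_left_eq_zero).1 h1)

/-- Two solutions at the same point have the same roots. -/
theorem Wser_unique (s s' : ChordSol C B I P) : s.Wser = s'.Wser := by
  funext o
  have h1 := s.eq_smul_F s'.F s'.mulVec_F
  have h2 := s'.eq_smul_F s.F s.mulVec_F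
  have h3 : s'.F s.i0 * s.F s'.i0 = 1 := by
    have := congrFun h1 s'.i0
    rw [s'.F_i0, Pi.smul_apply, smul_eq_mul] at this
    exact this.symm
  have hc : ∀ b : B, s'.F s.i0 * b = 0 → b = 0 := by
    intro b hb
    have : s.F s'.i0 * (s'.F s.i0 * b) = 0 := by rw [hb, mul_zero]
    rwa [← mul_assoc, mul_comm (s.F s'.i0), h3, one_mul] at this
  have hroot : evalM I (s'.Wser o) (s'.Wser_mem o) (tay B (C.τO o) s'.F) = 0 := by
    rw [s'.tay_F, evalM_X_sub_C_mul, sub_self, zero_mul]
  exact (s.root_eq s'.F s'.mulVec_F hc o (s'.Wser_mem o) hroot).symm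

section Map

variable {A : Type*} [CommRing A] [Algebra W A] {IA : Ideal A} [IsAdicComplete IA A]
  {PA : Pt A IA D S}

/-- **(G4)** Solutions specialise along every `W`-algebra hom. -/
noncomputable def map (s : ChordSol C A IA PA) (ρ : A →ₐ[W] B)
    (hρ : ∀ a ∈ IA, (ρ : A →+* B) a ∈ I) :
    ChordSol C B I (PA.map (ρ : A →+* B) hρ) where
  e := s.e
  isUnit_minor := by
    have h : (condMatrix C B I (PA.map (ρ : A →+* B) hρ)).submatrix id (s.e ∘ Sum.inl)
        = ((condMatrix C A IA PA).submatrix id (s.e ∘ Sum.inl)).map (ρ : A →+* B) := by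
      rw [← condMatrix_map C ρ hρ PA]
      ext; rfl
    rw [h]
    exact isUnit_map_of_isUnit _ _ s.isUnit_minor
  Wser o := ρ (s.Wser o)
  Wser_mem o := hρ _ (s.Wser_mem o)
  u o := (s.u o).map (ρ : A →+* B)
  isUnit_u o := (s.isUnit_u o).map _
  tay_eq o := by
    rw [← condMatrix_map C ρ hρ PA, kerGen_map (ρ : A →+* B) _ _ s.isUnit_minor]
    have h := congrArg (PowerSeries.map (ρ : A →+* B)) (s.tay_eq o)
    rw [tay_map ρ] at h
    rw [map_mul, map_sub, PowerSeries.map_X, PowerSeries.map_C] at h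
    exact h

theorem map_F (s : ChordSol C A IA PA) (ρ : A →ₐ[W] B)
    (hρ : ∀ a ∈ IA, (ρ : A →+* B) a ∈ I) : (s.map ρ hρ).F = fun i => ρ (s.F i) := by
  unfold F
  show kerGen (condMatrix C B I (PA.map (ρ : A →+* B) hρ)) s.e = _
  rw [← condMatrix_map C ρ hρ PA, kerGen_map (ρ : A →+* B) _ _ s.isUnit_minor]
  rfl

@[simp] theorem map_Wser (s : ChordSol C A IA PA) (ρ : A →ₐ[W] B)
    (hρ : ∀ a ∈ IA, (ρ : A →+* B) a ∈ I) (o : O) : (s.map ρ hρ).Wser o = ρ (s.Wser o) := rfl

@[simp] theorem map_i0 (s : ChordSol C A IA PA) (ρ : A →ₐ[W] B)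
    (hρ : ∀ a ∈ IA, (ρ : A →+* B) a ∈ I) : (s.map ρ hρ).i0 = s.i0 := rfl

end Map

end ChordSol

end Fermat.Agent.FF2.Chord
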