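import Mathlib
import Fermat.Agent.FF2.Chord.Sol
import Fermat.Agent.FF2.LocLA.Pivot
import Fermat.Agent.FF2.Weier.Root

/-!
# (UC4) Abstract universal chord, file 4: existence over every complete local `W`-algebra

`exists_chordSol` : under the special-fibre hypotheses

* `hcard` : one more unknown than conditions;
* `H1` : the constant condition matrix `cond0 C` is surjective modulo `𝔪_W` (Riemann–Roch on the
  special fibre);
* `f0` : a vector over `W` with a unit coordinate, in the kernel of `cond0 C` modulo `𝔪_W`, whose
  output Taylor series have `coeff 0 ∈ 𝔪_W` and `coeff 1` a unit (simple zeros of the special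
  function `f0b` at the output points);

for EVERY complete local `W`-algebra `A` (local structure map) and EVERY point `P` with
coordinates in `𝔪_A` there is a chord solution `s : ChordSol C A 𝔪_A P`, and `s.F` reduces to
`f0` up to a unit.  With `ChordSol.map` / `ChordSol.Wser_unique` (file 3) this is the universal
chord: take `A = W⟦X, Y, Z⟧` and `P` = the variables.
-/

set_option autoImplicit false
set_option linter.unusedSectionVars false

namespace Fermat.Agent.FF2.Chord

open PowerSeries IsLocalRing Fermat.Agent.FF2.Weier Fermat.Agent.FF2.LocLA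

variable {W : Type*} [CommRing W] [IsLocalRing W] {ι D S ν O : Type*} [Fintype ι]
  [Fintype D] [Fintype S] [Fintype ν] [DecidableEq D] [DecidableEq S] [DecidableEq ν]

theorem algebraMap_mem_maximalIdeal {A : Type*} [CommRing A] [IsLocalRing A] [Algebra W A]
    [IsLocalHom (algebraMap W A)] {w : W} (hw : w ∈ maximalIdeal W) :
    algebraMap W A w ∈ maximalIdeal A := by
  rw [mem_maximalIdeal, mem_nonunits_iff] at hw ⊢
  exact fun h => hw (isUnit_of_map_unit (algebraMap W A) w h)

theorem coeff_tay {B : Type*} [CommRing B] [Algebra W B] (τ : ι → PowerSeries W) (f : ι → B)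
    (n : ℕ) : coeff n (tay B τ f) = ∑ i, f i * algebraMap W B (coeff n (τ i)) := by
  unfold tay
  rw [map_sum]
  refine Finset.sum_congr rfl fun i _ => ?_
  rw [coeff_C_mul, coeff_map]

/-- **(UC4) existence.** -/
theorem exists_chordSol (C : ChordData W ι D S ν O)
    (hcard : Fintype.card ι = Fintype.card (D ⊕ D ⊕ S ⊕ ν) + 1)
    (H1 : Function.Surjective ((cond0 C).map (residue W)).mulVecLin)
    (f0 : ι → W) (hf0u : ∃ i, IsUnit (f0 i))
    (hf0 : ∀ c, (cond0 C).mulVec f0 c ∈ maximalIdeal W)
    (hO0 : ∀ o, ∑ i, f0 i * coeff 0 (C.τO o i) ∈ maximalIdeal W)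
    (hO1 : ∀ o, IsUnit (∑ i, f0 i * coeff 1 (C.τO o i)))
    (A : Type*) [CommRing A] [IsLocalRing A] [Algebra W A] [IsLocalHom (algebraMap W A)]
    [IsAdicComplete (maximalIdeal A) A] (P : Pt A (maximalIdeal A) D S) :
    ∃ s : ChordSol C A (maximalIdeal A) P, ∃ a0 : A, IsUnit a0 ∧
      ∀ i, algebraMap W A (f0 i) - a0 * s.F i ∈ maximalIdeal A := by
  classical
  -- Step 1: a pivot for the constant matrix
  obtain ⟨p, hp, hu⟩ := exists_pivot (cond0 C) H1
  -- Step 2: the column reindexing
  have hnot : ¬ Function.Surjective p := fun hs => by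
    have := Fintype.card_le_of_surjective p hs
    omega
  obtain ⟨i0, hi0⟩ : ∃ i0, ∀ c, p c ≠ i0 := by
    by_contra h
    push Not at h
    exact hnot h
  let g : (D ⊕ D ⊕ S ⊕ ν) ⊕ Unit → ι := Sum.elim p (fun _ => i0)
  have hginj : Function.Injective g := by
    rintro (a | a) (b | b) hab
    · exact congrArg Sum.inl (hp hab)
    · exact absurd hab (hi0 a)
    · exact absurd hab.symm (hi0 b)
    · rfl
  have hgbij : Function.Bijective g :=
    (Fintype.bijective_iff_injective_and_card g).2 ⟨hginj, by simp [hcard]⟩
  let e : (D ⊕ D ⊕ S ⊕ ν) ⊕ Unit ≃ ι := Equiv.ofBijective g hgbij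
  have he : (e ∘ Sum.inl : (D ⊕ D ⊕ S ⊕ ν) → ι) = p := rfl
  -- Step 3: the pivot block of the condition matrix is invertible
  set Φ := condMatrix C A (maximalIdeal A) P with hΦ
  have hres : ∀ c i, residue A (Φ c i) = residue A (algebraMap W A (cond0 C c i)) := by
    intro c i
    rw [← sub_eq_zero, ← map_sub, residue_eq_zero_iff]
    exact condMatrix_sub_cond0_mem C P c i
  have hminor : IsUnit (Φ.submatrix id (e ∘ Sum.inl)) := by
    apply isUnit_of_isUnit_map_residue
    have h1 : (Φ.submatrix id (e ∘ Sum.inl)).map (residue A)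
        = ((((cond0 C).submatrix id p).map (algebraMap W A))).map (residue A) := by
      ext c c'
      simp only [Matrix.map_apply, Matrix.submatrix_apply, id_eq, he]
      exact hres c (p c')
    rw [h1]
    exact isUnit_map_of_isUnit _ _ (isUnit_map_of_isUnit _ _ hu)
  -- Step 4: reduction of the generator
  set F := kerGen Φ e with hF
  let f0A : ι → A := fun i => algebraMap W A (f0 i)
  have hker : (Φ.map (residue A)).mulVec (fun i => residue A (f0A i)) = 0 := by
    funext c
    simp only [Matrix.mulVec, dotProduct, Matrix.map_apply, Pi.zero_apply]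
    have h1 : ∑ i, residue A (Φ c i) * residue A (f0A i)
        = residue A (algebraMap W A ((cond0 C).mulVec f0 c)) := by
      simp only [Matrix.mulVec, dotProduct, map_sum, map_mul]
      exact Finset.sum_congr rfl fun i _ => by rw [hres]
    rw [h1, residue_eq_zero_iff]
    exact algebraMap_mem_maximalIdeal (hf0 c)
  have hminor' : IsUnit ((Φ.map (residue A)).submatrix id (e ∘ Sum.inl)) := by
    have : (Φ.map (residue A)).submatrix id (e ∘ Sum.inl)
        = (Φ.submatrix id (e ∘ Sum.inl)).map (residue A) := by ext; rfl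
    rw [this]
    exact isUnit_map_of_isUnit _ _ hminor
  have hsm := eq_smul_kerGen (Φ.map (residue A)) e hminor' _ hker
  rw [kerGen_map (residue A) Φ e hminor] at hsm
  have hred : ∀ i, residue A (f0A i) = residue A (f0A (e (Sum.inr ()))) * residue A (F i) := by
    intro i
    have := congrFun hsm i
    simpa using this
  set a0 : A := f0A (e (Sum.inr ())) with ha0
  have ha0ne : residue A a0 ≠ 0 := by
    obtain ⟨i1, hi1⟩ := hf0u
    intro h
    have h1 := hred i1
    rw [h, zero_mul] at h1
    have h2 : IsUnit (residue A (f0A i1)) := (hi1.map (algebraMap W A)).map (residue A)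
    exact h2.ne_zero h1
  have ha0u : IsUnit a0 := by
    rw [← notMem_maximalIdeal, ← residue_eq_zero_iff]
    exact ha0ne
  -- Step 5: the output Taylor series
  have hout : ∀ (o : O) (n : ℕ), residue A a0 * residue A (coeff n (tay A (C.τO o) F))
      = residue A (algebraMap W A (∑ i, f0 i * coeff n (C.τO o i))) := by
    intro o n
    rw [coeff_tay, map_sum, map_sum, map_sum, Finset.mul_sum]
    refine Finset.sum_congr rfl fun i _ => ?_
    rw [map_mul, map_mul, map_mul, ← mul_assoc, ← hred i]
  have h0 : ∀ o, coeff 0 (tay A (C.τO o) F) ∈ maximalIdeal A := by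
    intro o
    rw [← residue_eq_zero_iff]
    have h1 := hout o 0
    rw [(residue_eq_zero_iff _).2 (algebraMap_mem_maximalIdeal (hO0 o))] at h1
    exact (mul_eq_zero.1 h1).resolve_left ha0ne
  have h1 : ∀ o, IsUnit (coeff 1 (tay A (C.τO o) F)) := by
    intro o
    rw [← notMem_maximalIdeal, ← residue_eq_zero_iff]
    intro h
    have h2 := hout o 1
    rw [h, mul_zero] at h2
    have h3 : IsUnit (residue A (algebraMap W A (∑ i, f0 i * coeff 1 (C.τO o i)))) :=
      ((hO1 o).map (algebraMap W A)).map (residue A)
    exact h3.ne_zero h2.symm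
  -- Step 6: Hensel roots
  refine ⟨{ e := e
            isUnit_minor := hminor
            Wser := fun o => hroot (tay A (C.τO o) F) (h0 o) (h1 o)
            Wser_mem := fun o => hroot_mem _ _ _
            u := fun o => Classical.choose (hroot_spec (tay A (C.τO o) F) (h0 o) (h1 o))
            isUnit_u := fun o =>
              (Classical.choose_spec (hroot_spec (tay A (C.τO o) F) (h0 o) (h1 o))).1
            tay_eq := fun o =>
              (Classical.choose_spec (hroot_spec (tay A (C.τO o) F) (h0 o) (h1 o))).2 },
    a0, ha0u, ?_⟩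
  intro i
  rw [← residue_eq_zero_iff, map_sub, map_mul, sub_eq_zero]
  exact hred i

end Fermat.Agent.FF2.Chord
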