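import Mathlib
import Fermat.Agent.FF2.Chord.Exists

/-!
# (UC4) file 6: the special-fibre hypothesis `f0` from its residue-field form

`exists_lift_f0` : a nonzero vector `fb : ι → k` (`k = ResidueField W`) in the kernel of the
reduced constant condition matrix whose reduced output Taylor series have a SIMPLE zero
(`coeff 0 = 0`, `coeff 1 ≠ 0`) lifts to an `f0 : ι → W` as required by `exists_chordSol` /
`universal_chord`.
-/

set_option autoImplicit false
set_option linter.unusedSectionVars false

namespace Fermat.Agent.FF2.Chord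

open PowerSeries IsLocalRing

variable {W : Type*} [CommRing W] [IsLocalRing W] {ι D S ν O : Type*} [Fintype ι]

theorem exists_lift_f0 (C : ChordData W ι D S ν O) (fb : ι → ResidueField W) (hne : fb ≠ 0)
    (hker : ((cond0 C).map (residue W)).mulVec fb = 0)
    (hO0 : ∀ o, ∑ i, fb i * residue W (coeff 0 (C.τO o i)) = 0)
    (hO1 : ∀ o, ∑ i, fb i * residue W (coeff 1 (C.τO o i)) ≠ 0) :
    ∃ f0 : ι → W, (∃ i, IsUnit (f0 i)) ∧
      (∀ c, (cond0 C).mulVec f0 c ∈ maximalIdeal W) ∧
      (∀ o, ∑ i, f0 i * coeff 0 (C.τO o i) ∈ maximalIdeal W) ∧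
      (∀ o, IsUnit (∑ i, f0 i * coeff 1 (C.τO o i))) := by
  choose f0 hf0 using fun i => Ideal.Quotient.mk_surjective (I := maximalIdeal W) (fb i)
  have hf0' : ∀ i, residue W (f0 i) = fb i := hf0
  refine ⟨f0, ?_, ?_, ?_, ?_⟩
  · obtain ⟨i, hi⟩ : ∃ i, fb i ≠ 0 := by
      by_contra h
      push Not at h
      exact hne (funext h)
    refine ⟨i, ?_⟩
    rw [← notMem_maximalIdeal, ← residue_eq_zero_iff, hf0']
    exact hi
  · intro c
    rw [← residue_eq_zero_iff]
    have := congrFun hker c
    simp only [Matrix.mulVec, dotProduct, Matrix.map_apply, Pi.zero_apply] at this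
    simp only [Matrix.mulVec, dotProduct, map_sum, map_mul, hf0']
    exact this
  · intro o
    rw [← residue_eq_zero_iff]
    simp only [map_sum, map_mul, hf0']
    exact hO0 o
  · intro o
    rw [← notMem_maximalIdeal, ← residue_eq_zero_iff]
    simp only [map_sum, map_mul, hf0']
    exact hO1 o

end Fermat.Agent.FF2.Chord
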